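import Fermat.Agent.LevelDrop.Embed
import Mathlib.RingTheory.Localization.FractionRing

/-!
# A domain finite over a complete DVR embeds into a larger one
-/

set_option autoImplicit false

noncomputable section

namespace FLTAgent.RT.NewPart

open IsLocalRing

variable {R : Type} [CommRing R] [IsNoetherianRing R] [IsLocalRing R]
  [IsAdicComplete (maximalIdeal R) R] [Finite (ResidueField R)]

/-- A domain finite over a complete local ring with finite residue field is local. -/
theorem isLocalRing_of_moduleFinite_complete {O : Type*} [CommRing O] [IsDomain O]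
    [Algebra R O] [Module.Finite R O] (hinj : Function.Injective (algebraMap R O)) :
    IsLocalRing O ∧ IsLocalHom (algebraMap R O) ∧
      Finite (O ⧸ (maximalIdeal R).map (algebraMap R O)) := by
  set m := maximalIdeal R
  set I := m.map (algebraMap R O) with hI
  have : IsAdicComplete m O := IsAdicComplete.of_module_finite m O
  have : IsAdicComplete I O := by
    rw [hI]; exact (IsAdicComplete.map_algebraMap_iff m O).mpr inferInstance
  have hjac : I ≤ Ideal.jacobson ⊥ := IsAdicComplete.le_jacobson_bot I
  have hne : I ≠ ⊤ := fun h => by
    rw [h, top_le_iff, Ideal.jacobson_eq_top_iff] at hjac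
    exact bot_ne_top hjac
  have hlochom : IsLocalHom (algebraMap R O) := by
    refine ⟨fun a ha => ?_⟩
    by_contra hna
    exact hne (Ideal.eq_top_of_isUnit_mem _ (Ideal.mem_map_of_mem _ hna) ha)
  have hfin : Finite (O ⧸ I) := by
    let _ : Algebra (R ⧸ m) (O ⧸ I) := Ideal.Quotient.algebraQuotientOfLEComap Ideal.le_comap_map
    have : IsScalarTower R (R ⧸ m) (O ⧸ I) := IsScalarTower.of_algebraMap_eq fun _ => rfl
    have : Module.Finite (R ⧸ m) (O ⧸ I) :=
      Module.Finite.of_restrictScalars_finite R _ _
    have : Finite (R ⧸ m) := inferInstanceAs (Finite (ResidueField R))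
    exact Module.finite_of_finite (R ⧸ m)
  refine ⟨?_, hlochom, hfin⟩
  have : Nontrivial (O ⧸ I) := Ideal.Quotient.nontrivial_iff.mpr hne
  have hloc : IsLocalRing (O ⧸ I) := by
    refine LevelDrop.isLocalRing_of_finite fun e he => ?_
    obtain ⟨a, rfl⟩ := Ideal.Quotient.mk_surjective e
    have he2 : Ideal.Quotient.mk I (2 * a - 1) * Ideal.Quotient.mk I (2 * a - 1) = 1 := by
      have he' : Ideal.Quotient.mk I a * Ideal.Quotient.mk I a = Ideal.Quotient.mk I a := he
      simp only [map_sub, map_mul, map_one, map_ofNat]
      linear_combination 4 * he'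
    obtain ⟨b, hb, hba⟩ := (IsAdicComplete.henselianRing O I).is_henselian
      (Polynomial.X ^ 2 - Polynomial.X) (by monicity!) a (by
        rw [← Ideal.Quotient.eq_zero_iff_mem]
        simp only [Polynomial.eval_sub, Polynomial.eval_pow, Polynomial.eval_X, map_sub, map_pow]
        rw [sq, he, sub_self])
      (by
        refine IsUnit.of_mul_eq_one (Ideal.Quotient.mk I (2 * a - 1)) ?_
        simpa [Polynomial.derivative_X_pow, map_ofNat, one_add_one_eq_two] using he2)
    rw [← Ideal.Quotient.eq] at hba
    simp only [Polynomial.IsRoot, Polynomial.eval_sub, Polynomial.eval_pow, Polynomial.eval_X,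
      sub_eq_zero, sq, Polynomial.eval_mul] at hb
    rcases eq_or_ne b 0 with rfl | hb0
    · exact Or.inl (by rw [← hba, map_zero])
    · exact Or.inr (by rw [← hba, (mul_eq_left₀ hb0).mp hb, map_one])
  have := isLocalHom_of_le_jacobson_bot I hjac
  exact RingHom.domain_isLocalRing (Ideal.Quotient.mk I)

/-- A domain finite and torsion-free over a complete discrete valuation ring of characteristic zero
with finite residue field embeds in another one, finite over it. -/
theorem exists_dvr_extension (O : Type) [CommRing O] [IsDomain O] [IsDiscreteValuationRing O]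
    [IsAdicComplete (maximalIdeal O) O] [Finite (ResidueField O)] [CharZero O]
    (A : Type) [CommRing A] [IsDomain A] [Algebra O A] [Module.Finite O A]
    (hA : Function.Injective (algebraMap O A)) :
    ∃ (B : Type) (_ : CommRing B) (_ : IsDomain B) (_ : IsDiscreteValuationRing B)
      (_ : IsAdicComplete (maximalIdeal B) B) (_ : Finite (ResidueField B)) (_ : CharZero B)
      (_ : Algebra O B) (_ : Module.Finite O B) (_ : IsLocalHom (algebraMap O B)),
      ∃ iota : A →ₐ[O] B, Function.Injective iota := by
  classical
  let K := AlgebraicClosure (FractionRing O)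
  have hK : Function.Injective (algebraMap O K) := by
    rw [IsScalarTower.algebraMap_eq O (FractionRing O) K]
    exact (algebraMap (FractionRing O) K).injective.comp (IsFractionRing.injective O _)
  have : Module.IsTorsionFree O K := (Module.isTorsionFree_iff_algebraMap_injective).mpr hK
  have : Module.IsTorsionFree O A := (Module.isTorsionFree_iff_algebraMap_injective).mpr hA
  have : Algebra.IsIntegral O A := Algebra.IsIntegral.of_finite O A
  let φ : A →ₐ[O] K := IsAlgClosed.lift
  have hφ : Function.Injective φ := by
    refine (RingHom.injective_iff_ker_eq_bot φ.toRingHom).mpr ?_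
    refine Ideal.eq_bot_of_comap_eq_bot (R := O) (le_bot_iff.mp fun z hz => ?_)
    rw [Ideal.mem_comap, RingHom.mem_ker] at hz
    exact Ideal.mem_bot.mpr (hK (by simpa using hz))
  obtain ⟨G, hG⟩ := (inferInstance : Module.Finite O A).fg_top
  let F := IntermediateField.adjoin (FractionRing O) ((G.image φ : Finset K) : Set K)
  have : FiniteDimensional (FractionRing O) F :=
    IntermediateField.finiteDimensional_adjoin fun x _ => Algebra.IsIntegral.isIntegral x
  have hmemF : ∀ r : A, φ r ∈ F := by
    intro r
    have hr : r ∈ Submodule.span O (G : Set A) := hG ▸ Submodule.mem_top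
    induction hr using Submodule.span_induction with
    | mem x hx =>
      exact IntermediateField.subset_adjoin _ _ (Finset.mem_coe.mpr (Finset.mem_image_of_mem φ hx))
    | zero => rw [map_zero]; exact zero_mem F
    | add x y _ _ hx hy => rw [map_add]; exact add_mem hx hy
    | smul c x _ hx =>
      rw [map_smul, Algebra.smul_def, IsScalarTower.algebraMap_apply O (FractionRing O) K]
      exact mul_mem (F.algebraMap_mem _) hx
  have : CharZero (FractionRing O) :=
    charZero_of_injective_algebraMap (IsFractionRing.injective O (FractionRing O))
  have : Algebra.IsSeparable (FractionRing O) F := inferInstance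
  let B := integralClosure O F
  have : Module.Finite O B := IsIntegralClosure.finite O (FractionRing O) F B
  have hinjF : Function.Injective (algebraMap O F) := by
    rw [IsScalarTower.algebraMap_eq O (FractionRing O) F]
    exact (algebraMap (FractionRing O) F).injective.comp (IsFractionRing.injective O _)
  have hinj : Function.Injective (algebraMap O B) := fun a b h => hinjF (congrArg Subtype.val h)
  obtain ⟨hloc, hlh, hfin⟩ := isLocalRing_of_moduleFinite_complete hinj
  have : IsDedekindDomain B := IsIntegralClosure.isDedekindDomain O (FractionRing O) F B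
  have : CharZero B := charZero_of_injective_algebraMap hinj
  obtain ⟨ϖ, hϖ⟩ := IsDiscreteValuationRing.exists_irreducible O
  have hϖB : algebraMap O B ϖ ∈ maximalIdeal B :=
    fun h => hϖ.not_isUnit (hlh.map_nonunit _ h)
  have hnf : ¬ IsField B := fun h => by
    rw [IsLocalRing.isField_iff_maximalIdeal_eq.mp h, Ideal.mem_bot] at hϖB
    exact hϖ.ne_zero (hinj (by rw [hϖB, map_zero]))
  have : IsDiscreteValuationRing B :=
    ((IsDiscreteValuationRing.TFAE B hnf).out 0 2).mpr (by assumption)
  have : IsAdicComplete (maximalIdeal B) B :=
    IsLocalRing.isAdicComplete_of_module_finite (𝒪 := O) (T := B)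
  have : Finite (ResidueField B) :=
    Finite.of_surjective (Ideal.Quotient.factor (show
      (maximalIdeal O).map (algebraMap O B) ≤ maximalIdeal B from
        Ideal.map_le_iff_le_comap.mpr fun a ha h => ha (hlh.map_nonunit _ h)))
      (Ideal.Quotient.factor_surjective _)
  let φF : A →ₐ[O] F :=
    { toFun := fun r => ⟨φ r, hmemF r⟩
      map_one' := Subtype.ext (map_one φ)
      map_mul' := fun x y => Subtype.ext (map_mul φ x y)
      map_zero' := Subtype.ext (map_zero φ)
      map_add' := fun x y => Subtype.ext (map_add φ x y)
      commutes' := fun c => Subtype.ext (φ.commutes c) }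
  have hint : ∀ r : A, φF r ∈ B := fun r => (Algebra.IsIntegral.isIntegral (R := O) r).map φF
  exact ⟨B, inferInstance, inferInstance, inferInstance, inferInstance, inferInstance, inferInstance,
    inferInstance, inferInstance, hlh, φF.codRestrict B hint,
    fun a b h => hφ (congrArg (fun x : B => ((x : F) : K)) h)⟩

end FLTAgent.RT.NewPart
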