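import Fermat.Agent.Newform.MainLemma

/-!
# An old system at a prime exactly dividing the level

If an eigenform of level `K q`, `q ∤ K`, has almost all eigenvalues of an eigenform `g` of level
prime to `q`, its `q`-th coefficient is a root of `X² - a_q(g) X + q`.
-/

set_option autoImplicit false

noncomputable section

namespace FLTAgent.RT.NewPart

open CongruenceSubgroup ModularFormClass FLTAgent.Newform
open scoped MatrixGroups

/-- Removing the coefficients at multiples of the primes in `E`, keeping one `q` in the level. -/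
theorem exists_depleted_mul {K q : ℕ} [NeZero K] [NeZero q] (hq : q.Prime) (hqK : ¬ q ∣ K)
    (v : CuspForm (Gamma0 (K * q)) 2) (E : Finset ℕ) (hE : ∀ r ∈ E, r.Prime ∧ r ≠ q) :
    ∃ (L : ℕ) (_ : NeZero L) (w : CuspForm (Gamma0 (L * q)) 2), ¬ q ∣ L ∧
      ∀ n, qCoeff w n = if ∀ r ∈ E, ¬ r ∣ n then qCoeff v n else 0 := by
  induction E using Finset.induction_on with
  | empty => exact ⟨K, inferInstance, v, hqK, fun n => by simp⟩
  | @insert r E hr ih =>
    obtain ⟨L, hL, w, hqL, hw⟩ := ih fun s hs => hE s (Finset.mem_insert_of_mem hs)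
    obtain ⟨hrp, hrq⟩ := hE r (Finset.mem_insert_self r E)
    have : NeZero r := ⟨hrp.ne_zero⟩
    have hqr : ¬ q ∣ r := fun h => hrq ((Nat.prime_dvd_prime_iff_eq hq hrp).mp h).symm
    have h1 : L * q ∣ L * q * r := dvd_mul_right _ r
    have h2 : L * q * r * r = L * r * r * q := by ring
    refine ⟨L * r * r, inferInstance,
      levelUp ((h1.trans (dvd_mul_right _ r)).trans h2.dvd) w
        - scaleUp hrp.ne_zero h2.dvd
            (CuspForm.heckeULin 2 (dvd_mul_left r (L * q)) (levelUp h1 w)), ?_, fun n => ?_⟩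
    · intro h
      rcases hq.dvd_mul.mp h with h | h
      · exact (hq.dvd_mul.mp h).elim hqL hqr
      · exact hqr h
    · rw [Quick.qCoeff_sub', qCoeff_levelUp, qCoeff_scaleUp, Quick.qCoeff_heckeULin hrp,
        qCoeff_levelUp]
      by_cases hrn : r ∣ n
      · rw [if_pos hrn, Nat.div_mul_cancel hrn, sub_self,
          if_neg fun h => h r (Finset.mem_insert_self r E) hrn]
      · rw [if_neg hrn, sub_zero, hw]
        refine if_congr ⟨fun h s hs => ?_, fun h s hs => h s (Finset.mem_insert_of_mem hs)⟩ rfl rfl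
        rcases Finset.mem_insert.mp hs with rfl | hs
        · exact hrn
        · exact h s hs

/-- **The stabilisation relation.** -/
theorem qCoeff_old_relation {K M' q : ℕ} [NeZero K] [NeZero M'] [NeZero q] (hq : q.Prime)
    (hqK : ¬ q ∣ K) (hM' : M' ∣ K) {f : CuspForm (Gamma0 (K * q)) 2}
    {g : CuspForm (Gamma0 M') 2} (hf : f.IsNormalizedEigenform) (hg : g.IsNormalizedEigenform)
    (S : Finset ℕ) (h : ∀ ℓ : ℕ, ℓ.Prime → ℓ ∉ S → qCoeff f ℓ = qCoeff g ℓ) :
    qCoeff f q ^ 2 - qCoeff g q * qCoeff f q + q = 0 := by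
  classical
  have hqM' : ¬ q ∣ M' := fun hd => hqK (hd.trans hM')
  let E : Finset ℕ := ((S ∪ (K * q).primeFactors).filter Nat.Prime).erase q
  have hE : ∀ r ∈ E, r.Prime ∧ r ≠ q := fun r hr =>
    ⟨(Finset.mem_filter.mp (Finset.mem_of_mem_erase hr)).2, Finset.ne_of_mem_erase hr⟩
  obtain ⟨L, hL, w, hqL, hw⟩ := exists_depleted_mul hq hqK
    (f - levelUp (hM'.trans (dvd_mul_right K q)) g) E hE
  obtain ⟨L', hL', wg, hqL', hwg⟩ := exists_depleted hq hqM' g E hE
  have hw' : ∀ n, qCoeff w n = if ∀ r ∈ E, ¬ r ∣ n then qCoeff f n - qCoeff g n else 0 := fun n => by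
    rw [hw, Quick.qCoeff_sub', qCoeff_levelUp]
  have hgood : ∀ n, (∀ r ∈ E, ¬ r ∣ n) → ¬ q ∣ n → qCoeff f n = qCoeff g n := by
    intro n hn hqn
    rcases Nat.eq_zero_or_pos n with rfl | hn0
    · exact absurd (dvd_zero q) hqn
    refine qCoeff_eq_of_prime_eq hf hg n hn0 fun ℓ hℓ hℓn => ?_
    have hℓD : ℓ ∉ E := fun hd => hn ℓ hd hℓn
    have hℓq : ℓ ≠ q := fun e => hqn (e ▸ hℓn)
    have hℓS : ℓ ∉ S ∪ (K * q).primeFactors := fun hd =>
      hℓD (Finset.mem_erase.mpr ⟨hℓq, Finset.mem_filter.mpr ⟨hd, hℓ⟩⟩)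
    rw [Finset.mem_union, not_or] at hℓS
    have hℓN : ¬ ℓ ∣ K * q := fun hd =>
      hℓS.2 (Nat.mem_primeFactors.mpr ⟨hℓ, hd, NeZero.ne _⟩)
    exact ⟨hℓN, fun hd => hℓN ((hd.trans hM').mul_right q), h ℓ hℓ hℓS.1⟩
  obtain ⟨u, hu⟩ := exists_eq_scaleUp hq w fun n hn => by
    rw [hw']
    split_ifs with hf'
    · rw [hgood n hf' hn, sub_self]
    · rfl
  have hum : ∀ m, qCoeff u m = qCoeff w (q * m) := fun m => by
    rw [← hu, qCoeff_scaleUp, if_pos (dvd_mul_right q m), Nat.mul_div_cancel_left m hq.pos]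
  have hfree : ∀ m, (∀ r ∈ E, ¬ r ∣ q * m) ↔ ∀ r ∈ E, ¬ r ∣ m := fun m =>
    ⟨fun hm r hr hd => hm r hr (hd.mul_left q), fun hm r hr hd =>
      ((hE r hr).1.dvd_mul.mp hd).elim
        (fun hd' => (hE r hr).2 ((Nat.prime_dvd_prime_iff_eq (hE r hr).1 hq).mp hd')) (hm r hr)⟩
  set c := qCoeff f q - qCoeff g q
  let z : CuspForm (Gamma0 (L * L')) 2 :=
    levelUp (dvd_mul_right L L') u - c • levelUp (dvd_mul_left L' L) wg
  have hqLL : ¬ q ∣ L * L' := fun hd => (hq.dvd_mul.mp hd).elim hqL hqL'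
  have hzm : ∀ m, qCoeff z m = qCoeff w (q * m) - c * qCoeff wg m := fun m => by
    rw [Quick.qCoeff_sub', qCoeff_levelUp, hum]
    exact congrArg (qCoeff w (q * m) - ·) ((Quick.qCoeffLin (L * L') 2 m).map_smul c _)
  have hz : z = 0 := eq_zero_of_qCoeff_support hq hqLL z fun m hm => by
    rw [hzm, hw', hwg]
    have hcop : q.Coprime m := (hq.coprime_iff_not_dvd).mpr hm
    by_cases hf' : ∀ r ∈ E, ¬ r ∣ m
    · rw [if_pos ((hfree m).mpr hf'), if_pos hf', hf.qCoeff_mul_of_coprime q m hcop,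
        hg.qCoeff_mul_of_coprime q m hcop, hgood m hf' hm]
      ring
    · rw [if_neg fun h' => hf' ((hfree m).mp h'), if_neg hf', mul_zero, sub_zero]
  have hq1 : ∀ r ∈ E, ¬ r ∣ q := fun r hr hd =>
    (hE r hr).2 ((Nat.prime_dvd_prime_iff_eq (hE r hr).1 hq).mp hd)
  have key : qCoeff z q = 0 := by
    rw [hz]; exact (Quick.qCoeffLin (L * L') 2 q).map_zero
  rw [hzm, hw', hwg, if_pos ((hfree q).mpr hq1), if_pos hq1,
    show q * q = q ^ (0 + 2) by ring, hf.qCoeff_prime_pow_of_dvd q 0 hq (dvd_mul_left q K),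
    hg.qCoeff_prime_pow_of_not_dvd q 0 hq hqM'] at key
  simp only [zero_add, pow_one, pow_zero, hg.qCoeff_one] at key
  linear_combination key

end FLTAgent.RT.NewPart
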